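import Mathlib
import Fermat.Agent.LT.T7.H305.Match893Spec
import Fermat.Agent.LT.T7.H340.UpFactSpec

/-!
# Row LT, tower T7, node C2.7.13.1b `UpFactC305b` (owner helper314, registry row 2740):
# THE CUT -- Spec

OFF-MAIN.  Definitions and frozen Props only (the proved tops are in `UpFactBTop.lean`).  No
hole, nothing assumed.  ADDITIVE (new names only, suffix `314`).  Vocabulary:
`T7/H305/Match893Spec.lean` (helper305, sha256 d1d042d0: `UpFactC305b`, `IsSplitVal305b`),
`T7/H340/UpFactSpec.lean` (helper340, sha256 04981afb: the SECOND CUT of `UpFactC340`),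
`T7/H893/SupplyConstrSpec2.lean` (helper893, `LocHyp893`) and their imports, byte-identical.

    upFactC305b_of314 : UpDatC340 K K' → SplitEnumC314 K K' → CutOnUpC340 K K'
                          → FactIntUpCoreC314 K K' → H305.UpFactC305b K K'      (VERBATIM)
    factIntUpC340_of_core314 : FactIntUpCoreC314 K K' → H340.FactIntUpC340 K K'
    upFactC340_of314 : UpDatC340 K K' → CutOnUpC340 K K' → FactIntUpCoreC314 K K'
                          → H340.UpFactC340 K K'

## The cut = the second cut of helper340, with TWO changes

The leaves of the second cut of helper340 (`SuppOutUpC340`, `SuppUpC340`, `CutOnOutUpC340`,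
`IsoContC340`, `GrpSplitC340`, `PtFactUpC340`, `RayFinUpC340`, `ArchIntblUpC340`) and the parts
`UpDatC340`, `CutOnUpC340` do NOT mention the local hypotheses; they are used AS THEY ARE.

1. `FactIntUpCoreC314` = PART B IN CORE FORM: `H340.FactIntUpC340` with the three facts which
   its proof takes from the local hypotheses in place of `LocHyp305`:
   * `hinv`  = the clause `inv_up` (components upstairs bi-invariant, finite support modulo
     `U(n_w)`: measurability of the integrand),
   * `harch` = the clause `arch_up` (continuous, compact support, invariant under complex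
     conjugation),
   * `hlev`  = the levels agree along the enumerations OF THE DATA `U` at the split places
     (the hypothesis `hlev` of `GrpSplitC340`).
   The conclusion of `FactIntUpC340` does not mention `f₀`, `F`: they are not in the core form.
   `LocHyp305` gives the three facts (`factIntUpC340_of_core314`, PROVED), and so does
   `LocHyp893` for data whose split enumerations are those of `LocHyp893.split`.
2. `SplitEnumC314` (LEAF): EVERY enumeration of the places over `v` with the five basic
   properties of `IsSplitVal340` is a full split datum (`IsSplitDat340`: the places are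
   distinct and ALL the places over `v`, `sig`, `iot`).  So the data of `UpDatC340` may be
   changed at the split places to the enumerations of `LocHyp893.split`.

FALSITY CHECKS (helper314).  `SplitEnumC314`: `w_j = σ^{-j}(w_0)` (`rel`), the group
`⟨σ⟩` of prime order `l` acts transitively on the places over `v` (`IsCycExt.galois`,
`IsCompData.cyc`), `w_j ≠ w_0` for `0 < j < l` (`ne`): the stabiliser of `w_0` is trivial, the
`w_a`, `a < l`, are distinct and exhaust the fibre, `w_l = w_0`; `i_j` is THE continuous
extension of `K → K'` to `K_v → K'_{w_j}` (`rat_i`, `val_i`, density of `K` in `K_v`), so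
`iot` follows from `IsAdeleBase305.fin` (the same density argument; `e = 1`) and `sig` from
`SigmaLocC305 K'` (`i_a⁻¹ ∘ s ∘ i_{a+1}` is a continuous endomorphism of `K_v` which is the
identity on `K`; for `a = l - 1`: `w_l = w_0`, `i_l = i_0` as maps).  The statement is the one
which the proof of `UpDatC340` establishes for the enumeration of `T6.InstSplitC`.
`FactIntUpCoreC314`: the constant is the one of `GrpSplitC340`; no clause of the local
hypotheses about the components DOWNSTAIRS is used (the equality is about the integral
upstairs and the local integrals upstairs).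
-/

set_option autoImplicit false

open AutomorphicForm IsDedekindDomain NumberField MeasureTheory
open scoped ComplexConjugate

noncomputable section

namespace Fermat.Agent.LT.T7.H314

open Fermat.Agent.LT.H556 Fermat.Agent.LT.H556.A0 Fermat.Agent.LT.T7 Fermat.Agent.LT.T7.H305
open Fermat.Agent.LT.T7.H340

attribute [local instance] Fermat.Agent.LT.T5.instMeasurableSpaceG

section TwoFields

variable (K K' : Type) [Field K] [NumberField K] [Field K'] [NumberField K'] [Algebra K K']

/-- **LEAF UF.b1 = SPLIT-ENUM.**  An enumeration `(w_j, i_j)` of places over the finite place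
`v` with the five basic properties of `H340.IsSplitVal340` (`w_j` over `v`,
`w_j = σ(w_{j+1})`, `w_j ≠ w_0` for `0 < j < l`, `i_j` extends `K → K'`, `i_j` preserves the
valuation) is a full split datum `H340.IsSplitDat340`.  See the header (FALSITY CHECKS) for
the proof. -/
def SplitEnumC314 : Prop :=
  T6.T6Out →
  ∀ D : CompData K K', IsCompData D → IsCycExt K K' D.l → D.l ≠ 2 → TotCplx K →
    ∀ ι : Adl K →+* Adl K', IsAdeleBase305 D.s D.l ι →
    ∀ (v : HeightOneSpectrum (𝓞 K)) (d : SplitDat340 K' v),
      (∀ j : ℕ, PlaceOver K K' v (d.w j)) →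
      (∀ j : ℕ, T5.PlaceRel D.s (d.w (j + 1)) (d.w j)) →
      (∀ j : ℕ, 0 < j → j < D.l → d.w j ≠ d.w 0) →
      (∀ (j : ℕ) (x : K), d.i j (algebraMap K (v.adicCompletion K) x)
        = algebraMap K' ((d.w j).adicCompletion K') (algebraMap K K' x)) →
      (∀ (j : ℕ) (x : v.adicCompletion K), Valued.v (d.i j x) = Valued.v x) →
      IsSplitDat340 D ι d

/-- **PART B IN CORE FORM = FACT-INT-UP-CORE.**  `H340.FactIntUpC340` with the facts `hinv`
(`inv_up`), `harch` (`arch_up`), `hlev` (levels along the enumerations of the data) in place of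
the local hypotheses.  The constant `c'_G` depends on `D`, `μc`, `T₀`, `n` only.
Proof.  The proof of `H340.FactIntUpC340` from the leaves of helper340: `RayFinUpC340` (the sum
over the ray is a finite sum, uniformly), `PtFactUpC340` (pointwise factorisation on
`Out_{S'}`; `harch`), `GrpSplitC340` (the Haar measure in the grouped coordinates; `hlev`),
Fubini for products of functions (`integral_prod_mul`, `integral_fintype_prod_eq_prod`; no
integrability needed; `HaarSigmaC558`), measurability of the local integrands
(`BiInvContC558` with `hinv`, `IsoContC340`, `CompContC558 K'`, `OutOpenC558 K'`),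
`ArchIntblUpC340` (exchange of the finite sum over `j` with the integral). -/
def FactIntUpCoreC314 : Prop :=
  T6.T6Out →
  ∀ D : CompData K K', IsCompData D → IsCycExt K K' D.l → D.l ≠ 2 → TotCplx K →
    ∀ ι : Adl K →+* Adl K', IsAdeleBase305 D.s D.l ι →
    ∀ μc : @Measure (GL (Fin 2) ℂ) (borel _), @Measure.IsHaarMeasure _ _ _ (borel _) μc →
    ∀ (T₀ : Finset (HeightOneSpectrum (𝓞 K))), UnramOut305 (K' := K') T₀ →
    ∀ (n : HeightOneSpectrum (𝓞 K') → ℕ) (m : HeightOneSpectrum (𝓞 K) → ℕ),
      IsLevelAt305 T₀ n m →
    ∃ cG' : ℝ, 0 < cG' ∧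
      ∀ (S : Finset (HeightOneSpectrum (𝓞 K))) (S' : Finset (HeightOneSpectrum (𝓞 K'))),
        T₀ ⊆ S → IsOver305 S S' →
      ∀ (φ₀ : ∀ w : HeightOneSpectrum (𝓞 K'), GL (Fin 2) (w.adicCompletion K') → ℂ)
        (Φ : InfinitePlace K' → GL (Fin 2) ℂ → ℂ),
        (∀ v ∈ S, ∀ w : HeightOneSpectrum (𝓞 K'), PlaceOver K K' v w →
          T6.IsBiInv (T6.InU (n w)) (φ₀ w) ∧ T6.HasFinSupp (T6.InU (n w)) (φ₀ w)) →
        (∀ w : InfinitePlace K', Continuous (Φ w) ∧ HasCompactSupport (Φ w) ∧
          ∀ g : GL (Fin 2) ℂ, Φ w (conjGL305 g) = Φ w g) →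
      ∀ (δ : GL (Fin 2) K') (γ : GL (Fin 2) K), T6.IsEll γ →
        D.s.normUpTo D.l δ = Matrix.GeneralLinearGroup.map (algebraMap K K') γ →
        GoodOut305 S γ → IntOut305 S' δ →
      ∀ (L : LocData305 K γ) (cT : ℝ), IsLocData305 m L → 0 < cT →
      ∀ (U : UpDat340 K δ) (hU : IsUpDat340 D ι n L S U),
        (∀ (v : U.Ssp) (a : ℕ), n ((U.dS v).w a) = m v.1) →
        cutInt305 D.R'.r D.s (pure305 S' φ₀ Φ) δ D.R'.μ (upCut340 S' cT L U)
          = ((cG' / cT : ℝ) : ℂ)
            * ∑' j : ℤ, (∏ v ∈ S, upJ340 D.l hU.pos φ₀ L U v)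
                * ∏ w : InfinitePlace K, upJc340 D.l hU.pos D.R'.r Φ L μc U w j

end TwoFields

/-! ## Appendix: the equation lemmas of the definitions are realised HERE -/

theorem eqns_realisedUFB314 : True := by
  have _a1 := @SplitEnumC314.eq_1
  have _a2 := @SplitEnumC314.eq_def
  have _a3 := @SplitEnumC314.eq_unfold
  have _b1 := @FactIntUpCoreC314.eq_1
  have _b2 := @FactIntUpCoreC314.eq_def
  have _b3 := @FactIntUpCoreC314.eq_unfold
  trivial

end Fermat.Agent.LT.T7.H314

end
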