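import Mathlib
import Fermat.Agent.LT.T7.H314.UpFactBSpec
import Fermat.Agent.LT.T7.H340.UpFactTop

/-!
# Row LT, tower T7, node C2.7.13.1b `UpFactC305b` (owner helper314, registry row 2740):
# THE CUT -- proved tops

OFF-MAIN.  No hole, nothing assumed.

    upFactC305b_of314 : UpDatC340 K K' → SplitEnumC314 K K' → CutOnUpC340 K K'
                          → FactIntUpCoreC314 K K' → H305.UpFactC305b K K'      (VERBATIM)
    factIntUpC340_of_core314 : FactIntUpCoreC314 K K' → H340.FactIntUpC340 K K'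
    upFactC340_of314 : UpDatC340 K K' → CutOnUpC340 K K' → FactIntUpCoreC314 K K'
                          → H340.UpFactC340 K K'
-/

set_option autoImplicit false

open AutomorphicForm IsDedekindDomain NumberField MeasureTheory
open scoped ComplexConjugate

noncomputable section

namespace Fermat.Agent.LT.T7.H314

open Fermat.Agent.LT.H556 Fermat.Agent.LT.H556.A0 Fermat.Agent.LT.T7 Fermat.Agent.LT.T7.H305
open Fermat.Agent.LT.T7.H340

attribute [local instance] Fermat.Agent.LT.T5.instMeasurableSpaceG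

variable {K K' : Type} [Field K] [NumberField K] [Field K'] [NumberField K'] [Algebra K K']

/-! ## 1. The core form gives part B of helper340 -/

/-- **`H340.FactIntUpC340` from the core form**: `LocHyp305` gives `hinv`, `harch`, `hlev`. -/
theorem factIntUpC340_of_core314 (hB : FactIntUpCoreC314 K K') : FactIntUpC340 K K' := by
  intro hT6 D hD hcyc hl hcplx ι hι μc hμc T₀ hT₀ n m hlev
  obtain ⟨cG', hcG', hfact⟩ := hB hT6 D hD hcyc hl hcplx ι hι μc hμc T₀ hT₀ n m hlev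
  refine ⟨cG', hcG', ?_⟩
  intro S S' hTS hSS' φ₀ Φ f₀ F hloc δ γ hγ hN hgood hint L cT hL hcT U hU
  refine hfact S S' hTS hSS' φ₀ Φ hloc.inv_up hloc.arch_up δ γ hγ hN hgood hint L cT hL hcT U hU
    ?_
  intro v a
  have hv : v.1 ∈ S := (hU.union v.1).2 (Or.inr v.2)
  have hd := hU.split v
  exact (hloc.split v.1 hv (U.dS v).w (U.dS v).i hd.ovr hd.rel hd.ne hd.rat_i hd.val_i).1 a

/-- **`H340.UpFactC340` from the parts, with part B in core form.** -/
theorem upFactC340_of314 (hDat : UpDatC340 K K') (hA : CutOnUpC340 K K')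
    (hB : FactIntUpCoreC314 K K') : UpFactC340 K K' :=
  upFactC_of_parts340 hDat hA (factIntUpC340_of_core314 hB)

/-! ## 2. The data with the enumerations of `LocHyp893.split` -/

/-- The data `U` with the split data replaced by `dS`. -/
def withSplit314 {δ : GL (Fin 2) K'} (U : UpDat340 K δ)
    (dS : ∀ v : U.Ssp, SplitDat340 K' v.1) : UpDat340 K δ where
  Sin := U.Sin
  Ssp := U.Ssp
  dI := U.dI
  dS := dS
  dA := U.dA

/-- The new data are data if the new split data are. -/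
theorem isUpDat_withSplit314 {D : CompData K K'} {ι : Adl K →+* Adl K'}
    {n : HeightOneSpectrum (𝓞 K') → ℕ} {δ : GL (Fin 2) K'} {γ : GL (Fin 2) K}
    {L : LocData305 K γ} {S : Finset (HeightOneSpectrum (𝓞 K))} {U : UpDat340 K δ}
    (hU : IsUpDat340 D ι n L S U) (dS : ∀ v : U.Ssp, SplitDat340 K' v.1)
    (hdS : ∀ v : U.Ssp, IsSplitDat340 D ι (dS v)) :
    IsUpDat340 D ι n L S (withSplit314 U dS) where
  pos := hU.pos
  union := hU.union
  disj := hU.disj
  inert := hU.inert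
  split := hdS
  arch := hU.arch

/-- **THE DATA FOR `LocHyp893`**: local data upstairs whose enumerations at the split places are
enumerations for which the levels agree and the convolution identity holds. -/
theorem exists_upDat893_314 (hDat : UpDatC340 K K') (hE : SplitEnumC314 K K')
    (hT6 : T6.T6Out) (D : CompData K K') (hD : IsCompData D) (hcyc : IsCycExt K K' D.l)
    (hl : D.l ≠ 2) (hcplx : TotCplx K) (ι : Adl K →+* Adl K') (hι : IsAdeleBase305 D.s D.l ι)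
    (μc : @Measure (GL (Fin 2) ℂ) (borel _))
    (T₀ : Finset (HeightOneSpectrum (𝓞 K))) (hT₀ : UnramOut305 (K' := K') T₀)
    (n : HeightOneSpectrum (𝓞 K') → ℕ) (m : HeightOneSpectrum (𝓞 K) → ℕ)
    (hlev : IsLevelAt305 T₀ n m)
    (S : Finset (HeightOneSpectrum (𝓞 K))) (S' : Finset (HeightOneSpectrum (𝓞 K')))
    (hTS : T₀ ⊆ S) (hSS' : IsOver305 S S')
    (φ₀ : ∀ w : HeightOneSpectrum (𝓞 K'), GL (Fin 2) (w.adicCompletion K') → ℂ)
    (Φ : InfinitePlace K' → GL (Fin 2) ℂ → ℂ)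
    (f₀ : ∀ v : HeightOneSpectrum (𝓞 K), GL (Fin 2) (v.adicCompletion K) → ℂ)
    (F : InfinitePlace K → GL (Fin 2) ℂ → ℂ)
    (hloc : H893.LocHyp893 D μc S n m φ₀ Φ f₀ F)
    (δ : GL (Fin 2) K') (γ : GL (Fin 2) K) (hγ : T6.IsEll γ)
    (hN : D.s.normUpTo D.l δ = Matrix.GeneralLinearGroup.map (algebraMap K K') γ)
    (L : LocData305 K γ) (hL : IsLocData305 m L) :
    ∃ U : UpDat340 K δ, IsUpDat340 D ι n L S U ∧
      ∀ v : U.Ssp, (∀ j : ℕ, n ((U.dS v).w j) = m v.1) ∧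
        T6.IsConvProd (T6.InU (m v.1)) D.l (phiS340 φ₀ (U.dS v)) (f₀ v.1) := by
  obtain ⟨U₀, hU₀⟩ :=
    hDat hT6 D hD hcyc hl hcplx ι hι T₀ hT₀ n m hlev S S' hTS hSS' δ γ hγ hN L hL
  have hl1 : 1 < D.l := hcyc.prime.one_lt
  -- the enumerations of the hypothesis at the split places of the data
  have hex : ∀ v : U₀.Ssp, ∃ d : SplitDat340 K' v.1,
      (∀ j : ℕ, PlaceOver K K' v.1 (d.w j)) ∧
      (∀ j : ℕ, T5.PlaceRel D.s (d.w (j + 1)) (d.w j)) ∧
      (∀ j : ℕ, 0 < j → j < D.l → d.w j ≠ d.w 0) ∧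
      (∀ (j : ℕ) (x : K), d.i j (algebraMap K ((v.1).adicCompletion K) x)
        = algebraMap K' ((d.w j).adicCompletion K') (algebraMap K K' x)) ∧
      (∀ (j : ℕ) (x : (v.1).adicCompletion K), Valued.v (d.i j x) = Valued.v x) ∧
      (∀ j : ℕ, n (d.w j) = m v.1) ∧
      T6.IsConvProd (T6.InU (m v.1)) D.l (phiS340 φ₀ d) (f₀ v.1) := by
    intro v
    have hv : v.1 ∈ S := (hU₀.union v.1).2 (Or.inr v.2)
    have hd := hU₀.split v
    obtain ⟨w, i, h1, h2, h3, h4, h5, h6, h7⟩ :=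
      hloc.split v.1 hv ⟨(U₀.dS v).w 1, (U₀.dS v).w 0, hd.ovr 1, hd.ovr 0,
        hd.ne 1 Nat.one_pos hl1⟩
    exact ⟨⟨w, i⟩, h1, h2, h3, h4, h5, h6, h7⟩
  choose dS h1 h2 h3 h4 h5 h6 h7 using hex
  refine ⟨withSplit314 U₀ dS, isUpDat_withSplit314 hU₀ dS fun v =>
    hE hT6 D hD hcyc hl hcplx ι hι v.1 (dS v) (h1 v) (h2 v) (h3 v) (h4 v) (h5 v), ?_⟩
  intro v
  exact ⟨h6 v, h7 v⟩

/-! ## 3. The top of the node -/

/-- **THE TOP OF THE NODE C2.7.13.1b**: `H305.UpFactC305b` from the parts `UpDatC340`,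
`CutOnUpC340` of helper340 (unchanged), the leaf `SplitEnumC314` and part B in core form. -/
theorem upFactC305b_of314 (hDat : UpDatC340 K K') (hE : SplitEnumC314 K K')
    (hA : CutOnUpC340 K K') (hB : FactIntUpCoreC314 K K') : UpFactC305b K K' := by
  intro hT6 D hD hcyc hl hcplx ι hι μc hμc T₀ hT₀ n m hlev
  obtain ⟨cG', hcG', hfact⟩ := hB hT6 D hD hcyc hl hcplx ι hι μc hμc T₀ hT₀ n m hlev
  refine ⟨cG', hcG', ?_⟩
  intro S S' hTS hSS' φ₀ Φ f₀ F hloc δ γ hγ hN hgood hint μT μT' hμT hμT' hlink L cT hL hcT hTor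
  obtain ⟨U, hU, hUs⟩ := exists_upDat893_314 hDat hE hT6 D hD hcyc hl hcplx ι hι μc T₀ hT₀ n m
    hlev S S' hTS hSS' φ₀ Φ f₀ F hloc δ γ hγ hN L hL
  refine ⟨upCut340 S' cT L U, upJ340 D.l hU.pos φ₀ L U, upJc340 D.l hU.pos D.R'.r Φ L μc U,
    ?_, ?_, ?_, ?_⟩
  · exact hA hT6 D hD hcyc hl hcplx ι hι T₀ hT₀ n m hlev S S' hTS hSS' φ₀ Φ δ γ hγ hN hgood hint
      μT μT' hμT hμT' hlink L cT hL hcT hTor U hU
  · exact hfact S S' hTS hSS' φ₀ Φ hloc.inv_up hloc.arch_up δ γ hγ hN hgood hint L cT hL hcT U hU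
      fun v a => (hUs v).1 a
  · intro v hv
    rcases (hU.union v).1 hv with h | h
    · left
      have hd := hU.inert ⟨v, h⟩
      exact ⟨(U.dI ⟨v, h⟩).w, (U.dI ⟨v, h⟩).e, (U.dI ⟨v, h⟩).i, (U.dI ⟨v, h⟩).sw,
        (U.dI ⟨v, h⟩).μ', (U.dI ⟨v, h⟩).μt', (U.dI ⟨v, h⟩).β', hd.ovr, hd.uniq, hd.rat_i,
        hd.rat_s, hd.ext, hd.haar, hd.tor, hd.cut, upJ_inert340 D.l hU.pos φ₀ L U v h⟩
    · right
      have hnot : v ∉ U.Sin := fun h1 => hU.disj v h1 h
      have hd := hU.split ⟨v, h⟩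
      exact ⟨hU.pos, (U.dS ⟨v, h⟩).w, (U.dS ⟨v, h⟩).i, hd.ovr, hd.rel, hd.ne, hd.rat_i,
        hd.val_i, (hUs ⟨v, h⟩).1, (hUs ⟨v, h⟩).2, upJ_split340 D.l hU.pos φ₀ L U v hnot h⟩
  · intro w j
    have hd := hU.arch w
    exact ⟨hU.pos, (U.dA w).w, (U.dA w).d, hd.ovr, hd.rel, hd.inj, hd.typ, hd.iot, rfl⟩

/-- `upFactC305b_of314` is the Prop of record of helper305, verbatim. -/
example (hDat : UpDatC340 K K') (hE : SplitEnumC314 K K') (hA : CutOnUpC340 K K')
    (hB : FactIntUpCoreC314 K K') : Fermat.Agent.LT.T7.H305.UpFactC305b K K' :=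
  upFactC305b_of314 hDat hE hA hB

/-! ## Appendix: the equation lemmas of the definition are realised HERE -/

theorem eqns_realisedUFBT314 : True := by
  have _a1 := @withSplit314.eq_1
  have _a2 := @withSplit314.eq_def
  have _a3 := @withSplit314.eq_unfold
  trivial

end Fermat.Agent.LT.T7.H314

end
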