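import Mathlib
import Fermat.Agent.LT.T7.H314.UpFactBTop
import Fermat.Agent.LT.T7.H340.UpFactTopB
import Fermat.Agent.LT.T7.H305.UpFact893Top

/-!
# Row LT, tower T7, node C2.7.13.1b `UpFactC305b` (helper314, registry rows 2740 / 2809):
# PART B IN CORE FORM FROM THE LEAVES, and the forms of record of helper305

OFF-MAIN.  No hole, nothing assumed.  ADDITIVE (new names only, suffix `314`).

    factIntUpCore_of_leaves314 : GrpSplitC340 K K' → PtFactUpC340 K K' → RayFinUpC340 K K' →
        ArchIntblUpC340 K K' → ArchIntblC558 → CompContC558 K' → BiInvContC558 K' →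
        HaarSigmaC558 K → HaarSigmaC558 K' → IsoContC340 → SecCountC340 K →
        FactIntUpCoreC314 K K'
    upDatC305b_of314     : H340.UpDatC340 K K' → SplitEnumC314 K K' → H305.UpDatC305b K K'
    factIntUpC305b_of314 : SplitEnumC314 K K' → FactIntUpCoreC314 K K'
                             → H305.FactIntUpC305b K K'
    upFactC305b_of_leaves314 : (the parts / leaves of helper340) → SplitEnumC314 K K'
                             → H305.UpFactC305b K K'

`factIntUpCore_of_leaves314` is THE PROOF OF helper340 (`H340.factIntUpC_of340`,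
`T7/H340/UpFactTopB.lean` sha256 36e5eeb8, helper340@c7a784fad) with the three facts `hinv`,
`harch`, `hlevS` as hypotheses: that proof uses the local hypotheses only through `inv_up`,
`arch_up` and `split` (for the levels along the enumerations of the data).  All lemmas of
helper340 are cited, none is copied.

`UpDatC305b`, `FactIntUpC305b` are the parts of record of helper305 (`T7/H305/UpFact893Spec.lean`,
helper305@4d68ca01b) of the Prop of record `UpFactC305b`.  `FactIntUpC305b` is stated for ALL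
data `U`: the levels along the enumeration of `U` follow from the ONE enumeration of
`LocHyp893.split`, which exhausts the places over `v` (`SplitEnumC314`, field `exh`).
-/

set_option autoImplicit false
set_option linter.style.haveILetI false

open AutomorphicForm IsDedekindDomain NumberField MeasureTheory
open scoped ComplexConjugate

noncomputable section

namespace Fermat.Agent.LT.T7.H314

open Fermat.Agent.LT.H556 Fermat.Agent.LT.H556.A0 Fermat.Agent.LT.T7 Fermat.Agent.LT.T7.H305
open Fermat.Agent.LT.T7.H340 Fermat.Agent.LT.T7.H558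

attribute [local instance] Fermat.Agent.LT.T5.instMeasurableSpaceG

variable {K K' : Type} [Field K] [NumberField K] [Field K'] [NumberField K'] [Algebra K K']

/-! ## 1. Part B in core form from the leaves of helper340 -/

/-- **TOP B IN CORE FORM**: the integral part from the leaves of the second cut of helper340
(the proof of `H340.factIntUpC_of340`, with `hinv`, `harch`, `hlevS` as hypotheses). -/
theorem factIntUpCore_of_leaves314 (hG : GrpSplitC340 K K') (hP : PtFactUpC340 K K')
    (hR : RayFinUpC340 K K') (hI : ArchIntblUpC340 K K') (hAI : ArchIntblC558)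
    (hCC' : CompContC558 K') (hBI' : BiInvContC558 K') (hSig : HaarSigmaC558 K)
    (hSig' : HaarSigmaC558 K') (hIso : IsoContC340) (hSC : SecCountC340 K) :
    FactIntUpCoreC314 K K' := by
  intro hT6 D hD hcyc hl2 hcplx ι hι μc hμc T₀ hT₀ n m hlev
  obtain ⟨c, hc, hsplit⟩ := hG hT6 D hD hcyc hl2 hcplx ι hι μc hμc T₀ hT₀ n m hlev
  refine ⟨c, hc, ?_⟩
  intro S S' hTS hSS' φ₀ Φ hinv harch δ γ hγ hN hgood hint L cT hL hcT U hU hlevS
  letI mw : ∀ w : HeightOneSpectrum (𝓞 K'),
      MeasurableSpace (GL (Fin 2) (w.adicCompletion K')) := fun _ => borel _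
  letI mv : ∀ v : HeightOneSpectrum (𝓞 K), MeasurableSpace (GL (Fin 2) (v.adicCompletion K)) :=
    fun _ => borel _
  letI mc : MeasurableSpace (GL (Fin 2) ℂ) := borel _
  haveI bw : ∀ w : HeightOneSpectrum (𝓞 K'), BorelSpace (GL (Fin 2) (w.adicCompletion K')) :=
    fun _ => ⟨rfl⟩
  haveI bv : ∀ v : HeightOneSpectrum (𝓞 K), BorelSpace (GL (Fin 2) (v.adicCompletion K)) :=
    fun _ => ⟨rfl⟩
  haveI bc : BorelSpace (GL (Fin 2) ℂ) := ⟨rfl⟩
  haveI bG : BorelSpace (G K') := ⟨rfl⟩
  haveI scv : ∀ v : HeightOneSpectrum (𝓞 K),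
      SecondCountableTopology (GL (Fin 2) (v.adicCompletion K)) := hSC.1
  haveI scc : SecondCountableTopology (GL (Fin 2) ℂ) := hSC.2
  haveI sw : ∀ v : U.Sin, SigmaFinite (U.dI v).μ' :=
    fun v => hSig'.1 (U.dI v).w (U.dI v).μ' (hU.inert v).haar.1
  haveI sv : ∀ v : HeightOneSpectrum (𝓞 K), SigmaFinite (L.μv v) :=
    fun v => hSig.1 v (L.μv v) (hL.haar v).1
  haveI sc : SigmaFinite μc := hSig.2.1 μc hμc
  have hl : 0 < D.l := hU.pos
  have hmap : Measure.map (upCoord340 U D.l) (D.R'.μ.restrict {y | OutT305 S' y})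
      = ENNReal.ofReal c •
        ((Measure.pi fun v : U.Sin => (U.dI v).μ').prod
          ((Measure.pi fun v : U.Ssp => Measure.pi fun _ : Fin D.l => L.μv v.1).prod
            (Measure.pi fun _ : InfinitePlace K => Measure.pi fun _ : Fin D.l => μc))) :=
    hsplit S S' hTS hSS' δ γ L hL U hU hlevS
  obtain ⟨J, hJ⟩ := hR D hD ι Φ (fun w => ⟨(harch w).1, (harch w).2.1⟩) δ U.dA
    hU.arch
  obtain ⟨w₀⟩ : Nonempty (InfinitePlace K) := inferInstance
  -- continuity of the local maps
  have hOut : MeasurableSet {y : G K' | OutT305 S' y} :=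
    (isClosed_outT340 hCC'.1 S').measurableSet
  have hφw : ∀ v : U.Sin, Continuous (φ₀ (U.dI v).w) := fun v =>
    hBI' (U.dI v).w (n (U.dI v).w) (φ₀ (U.dI v).w)
      (hinv v.1 ((hU.union v.1).2 (Or.inl v.2)) (U.dI v).w (hU.inert v).ovr).1
  have hsw : ∀ v : U.Sin, Continuous (((U.dI v).sw : _ ≃+* _) :
      (U.dI v).w.adicCompletion K' →+* (U.dI v).w.adicCompletion K') := fun v =>
    (hIso _ _ 1 _ one_pos fun x => by rw [pow_one]; exact (hU.inert v).ext.val_s x).1
  have hφS : ∀ (v : U.Ssp) (j : ℕ), Continuous (phiS340 φ₀ (U.dS v) j) := by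
    intro v j
    have h1 : Continuous (φ₀ ((U.dS v).w j)) :=
      hBI' ((U.dS v).w j) (n ((U.dS v).w j)) (φ₀ ((U.dS v).w j))
        (hinv v.1 ((hU.union v.1).2 (Or.inr v.2)) ((U.dS v).w j)
          ((hU.split v).ovr j)).1
    have h2 : Continuous ((((U.dS v).i j : _ ≃+* _) :
        (v.1).adicCompletion K →+* ((U.dS v).w j).adicCompletion K')) :=
      (hIso _ _ 1 _ one_pos fun x => by rw [pow_one]; exact (hU.split v).val_i j x).1
    exact h1.comp (continuous_GLmap340 _ h2)
  have hiS : ∀ (v : U.Ssp) (j : ℕ), Continuous (((((U.dS v).i j).symm : _ ≃+* _) :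
      ((U.dS v).w j).adicCompletion K' →+* (v.1).adicCompletion K)) := by
    intro v j
    refine (hIso _ _ 1 _ one_pos fun x => ?_).1
    rw [pow_one]
    have := (hU.split v).val_i j (((U.dS v).i j).symm x)
    rw [RingEquiv.apply_symm_apply] at this
    exact this.symm
  have hdA : ∀ (v : InfinitePlace K) (a : ℕ), Continuous ((U.dA v).d a) := by
    intro v a
    rcases (hU.arch v).typ a with h | h
    · rw [h]; exact continuous_id
    · rw [h]; exact Complex.continuous_conj
  -- measurability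
  have hcomp : Measurable (upCoord340 U D.l) := by
    refine Measurable.prodMk (measurable_pi_lambda _ fun v => (hCC'.1 _).measurable)
      (Measurable.prodMk (measurable_pi_lambda _ fun v => measurable_pi_lambda _ fun a => ?_)
        (measurable_pi_lambda _ fun v => measurable_pi_lambda _ fun a => ?_))
    · exact ((continuous_GLmap340 _ (hiS v a.1)).comp (hCC'.1 _)).measurable
    · exact ((continuous_GLmap340 _ (hdA v a.1)).comp (hCC'.2 _)).measurable
  have hfI : ∀ v : U.Sin, Measurable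
      (twFn340 (U.dI v).sw (U.dI v).β' (φ₀ (U.dI v).w) (locG305 (U.dI v).w δ)) := fun v =>
    (continuous_twFn340 _ (hsw v) (hU.inert v).cut.1 (hφw v) _).measurable
  have hfS : ∀ v : U.Ssp, Measurable
      (splitFn340 D.l hl (L.βv v.1) (phiS340 φ₀ (U.dS v)) (delS340 δ (U.dS v))) := fun v =>
    (continuous_splitFn340 D.l hl (hL.cut v.1).1 (fun j _ => hφS v j) _).measurable
  have hfA : ∀ (j : ℤ) (v : InfinitePlace K), Measurable
      (splitFn340 D.l hl (L.βc v) (fun a => Φ ((U.dA v).w a))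
        (delA340 D.R'.r δ (U.dA v) j)) := fun j v =>
    (continuous_splitFn340 D.l hl (hL.cutc v).1 (fun a _ => (harch _).1) _).measurable
  have hΨ : Measurable (upFactFn340 D.l hl D.R'.r L cT φ₀ Φ U J) := by
    delta upFactFn340
    beta_reduce
    refine measurable_const.mul (Measurable.mul ?_ (Measurable.mul ?_ ?_))
    · exact Finset.measurable_prod _ fun v _ =>
        (hfI v).comp ((measurable_pi_apply v).comp measurable_fst)
    · exact Finset.measurable_prod _ fun v _ =>
        (hfS v).comp ((measurable_pi_apply v).comp (measurable_fst.comp measurable_snd))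
    · exact Finset.measurable_sum _ fun j _ => Finset.measurable_prod _ fun v _ =>
        (hfA j v).comp ((measurable_pi_apply v).comp (measurable_snd.comp measurable_snd))
  -- the integral over `GL₂(𝔸_{K'})` as an integral over the product of the local groups
  have h1 : cutInt305 D.R'.r D.s (pure305 S' φ₀ Φ) δ D.R'.μ (upCut340 S' cT L U)
      = ∫ x, upFactFn340 D.l hl D.R'.r L cT φ₀ Φ U J x
          ∂(Measure.map (upCoord340 U D.l) (D.R'.μ.restrict {y | OutT305 S' y})) := by
    rw [integral_map hcomp.aemeasurable hΨ.aestronglyMeasurable]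
    unfold cutInt305
    rw [← setIntegral_eq_integral_of_forall_compl_eq_zero (s := {y | OutT305 S' y})]
    · exact setIntegral_congr_fun hOut fun y hy =>
        integrand_eq340 hP D hD hcyc hl2 hcplx ι hι n S S' hSS' φ₀ Φ
          (fun w => (harch w).2.2) δ γ hint L cT U hU J hJ y hy
    · intro y hy
      have hy' : ¬ OutT305 S' y := hy
      have h0 : upCut340 S' cT L U y = 0 := by
        unfold upCut340
        rw [if_neg hy']
      rw [h0]
      simp
  -- integrability at the infinite places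
  have hintbl : ∀ (j : ℤ) (v : InfinitePlace K),
      Integrable (splitFn340 D.l hl (L.βc v) (fun a => Φ ((U.dA v).w a))
        (delA340 D.R'.r δ (U.dA v) j)) (Measure.pi fun _ : Fin D.l => μc) := fun j v =>
    hI hAI D hD hcyc hl2 hcplx ι hι μc hμc Φ
      (fun w => ⟨(harch w).1, (harch w).2.1⟩) δ γ hγ hN m L hL v (U.dA v)
      (hU.arch v) hl j
  -- Fubini
  have h2 : ∫ x, upFactFn340 D.l hl D.R'.r L cT φ₀ Φ U J x
        ∂((Measure.pi fun v : U.Sin => (U.dI v).μ').prod
          ((Measure.pi fun v : U.Ssp => Measure.pi fun _ : Fin D.l => L.μv v.1).prod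
            (Measure.pi fun _ : InfinitePlace K => Measure.pi fun _ : Fin D.l => μc)))
      = ((cT⁻¹ : ℝ) : ℂ) *
        ((∏ v : U.Sin, ∫ a, twFn340 (U.dI v).sw (U.dI v).β' (φ₀ (U.dI v).w)
              (locG305 (U.dI v).w δ) a ∂((U.dI v).μ')) *
          ((∏ v : U.Ssp, ∫ a, splitFn340 D.l hl (L.βv v.1) (phiS340 φ₀ (U.dS v))
                (delS340 δ (U.dS v)) a ∂(Measure.pi fun _ : Fin D.l => L.μv v.1)) *
            ∑ j ∈ J, ∏ v : InfinitePlace K,
              ∫ b, splitFn340 D.l hl (L.βc v) (fun a => Φ ((U.dA v).w a))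
                (delA340 D.R'.r δ (U.dA v) j) b ∂(Measure.pi fun _ : Fin D.l => μc))) := by
    delta upFactFn340
    rw [integral_const_mul]
    rw [integral_prod_mul
      (fun a : ∀ v : U.Sin, GL (Fin 2) ((U.dI v).w.adicCompletion K') =>
        ∏ v : U.Sin, twFn340 (U.dI v).sw (U.dI v).β' (φ₀ (U.dI v).w)
          (locG305 (U.dI v).w δ) (a v))
      (fun z : (∀ v : U.Ssp, Fin D.l →
            GL (Fin 2) ((v : HeightOneSpectrum (𝓞 K)).adicCompletion K)) ×
          (InfinitePlace K → Fin D.l → GL (Fin 2) ℂ) =>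
        (∏ v : U.Ssp, splitFn340 D.l hl (L.βv v.1) (phiS340 φ₀ (U.dS v))
            (delS340 δ (U.dS v)) (z.1 v)) *
          ∑ j ∈ J, ∏ v : InfinitePlace K,
            splitFn340 D.l hl (L.βc v) (fun a => Φ ((U.dA v).w a))
              (delA340 D.R'.r δ (U.dA v) j) (z.2 v))]
    rw [integral_prod_mul
      (fun a : ∀ v : U.Ssp, Fin D.l →
          GL (Fin 2) ((v : HeightOneSpectrum (𝓞 K)).adicCompletion K) =>
        ∏ v : U.Ssp, splitFn340 D.l hl (L.βv v.1) (phiS340 φ₀ (U.dS v))
          (delS340 δ (U.dS v)) (a v))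
      (fun b : InfinitePlace K → Fin D.l → GL (Fin 2) ℂ =>
        ∑ j ∈ J, ∏ v : InfinitePlace K,
          splitFn340 D.l hl (L.βc v) (fun a => Φ ((U.dA v).w a))
            (delA340 D.R'.r δ (U.dA v) j) (b v))]
    rw [integral_fintype_prod_eq_prod
      (fun v : U.Sin => twFn340 (U.dI v).sw (U.dI v).β' (φ₀ (U.dI v).w)
        (locG305 (U.dI v).w δ))]
    rw [integral_fintype_prod_eq_prod
      (fun v : U.Ssp => splitFn340 D.l hl (L.βv v.1) (phiS340 φ₀ (U.dS v))
        (delS340 δ (U.dS v)))]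
    rw [integral_finsetSum J fun j _ => Integrable.fintype_prod (hintbl j)]
    congr 3
    refine Finset.sum_congr rfl fun j _ => ?_
    exact integral_fintype_prod_eq_prod
      (fun v : InfinitePlace K => splitFn340 D.l hl (L.βc v) (fun a => Φ ((U.dA v).w a))
        (delA340 D.R'.r δ (U.dA v) j))
  -- the factorised value is a finite sum
  have h3 : (∑' j : ℤ, (∏ v ∈ S, upJ340 D.l hU.pos φ₀ L U v)
        * ∏ w : InfinitePlace K, upJc340 D.l hU.pos D.R'.r Φ L μc U w j)
      = ∑ j ∈ J, (∏ v ∈ S, upJ340 D.l hU.pos φ₀ L U v)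
        * ∏ w : InfinitePlace K, upJc340 D.l hU.pos D.R'.r Φ L μc U w j := by
    refine tsum_eq_sum fun j hj => ?_
    have h0 : upJc340 D.l hU.pos D.R'.r Φ L μc U w₀ j = 0 := by
      show (∫ y : Fin D.l → GL (Fin 2) ℂ,
        splitFn340 D.l hU.pos (L.βc w₀) (fun a => Φ ((U.dA w₀).w a))
          (delA340 D.R'.r δ (U.dA w₀) j) y ∂(Measure.pi fun _ : Fin D.l => μc)) = 0
      have hz : splitFn340 D.l hU.pos (L.βc w₀) (fun a => Φ ((U.dA w₀).w a))
          (delA340 D.R'.r δ (U.dA w₀) j) = fun _ => 0 := by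
        funext y
        show cycProd340 D.l (fun a => Φ ((U.dA w₀).w a)) (delA340 D.R'.r δ (U.dA w₀) j) y
          * ((L.βc w₀ (y ⟨0, hU.pos⟩) : ℝ) : ℂ) = 0
        rw [hJ j hj w₀ y, zero_mul]
      rw [hz]
      exact integral_zero _ _
    rw [Finset.prod_eq_zero (Finset.mem_univ w₀) h0, mul_zero]
  rw [h1, hmap, integral_smul_measure, ENNReal.toReal_ofReal hc.le, h2, h3,
    prod_upJ340 D.l hU.pos φ₀ L S U hU.union hU.disj, ← Finset.mul_sum, Complex.real_smul]
  have e1 : ∀ v : U.Sin, locTwInt340 (U.dI v).sw (U.dI v).μ' (U.dI v).β' (φ₀ (U.dI v).w)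
      (locG305 (U.dI v).w δ)
      = ∫ a, twFn340 (U.dI v).sw (U.dI v).β' (φ₀ (U.dI v).w) (locG305 (U.dI v).w δ) a
          ∂((U.dI v).μ') := fun v => rfl
  have e2 : ∀ v : U.Ssp, splitInt340 D.l hU.pos (L.μv v.1) (L.βv v.1) (phiS340 φ₀ (U.dS v))
      (delS340 δ (U.dS v))
      = ∫ a, splitFn340 D.l hl (L.βv v.1) (phiS340 φ₀ (U.dS v)) (delS340 δ (U.dS v)) a
          ∂(Measure.pi fun _ : Fin D.l => L.μv v.1) := fun v => rfl
  have e3 : ∀ (v : InfinitePlace K) (j : ℤ), upJc340 D.l hU.pos D.R'.r Φ L μc U v j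
      = ∫ b, splitFn340 D.l hl (L.βc v) (fun a => Φ ((U.dA v).w a))
          (delA340 D.R'.r δ (U.dA v) j) b ∂(Measure.pi fun _ : Fin D.l => μc) :=
    fun v j => rfl
  simp only [e1, e2, e3]
  push_cast
  ring


/-! ## 2. The parts of record of helper305 -/

/-- **`H305.UpDatC305b`** from `H340.UpDatC340` and the leaf `SplitEnumC314`. -/
theorem upDatC305b_of314 (hDat : UpDatC340 K K') (hE : SplitEnumC314 K K') :
    UpDatC305b K K' := by
  intro hT6 D hD hcyc hl hcplx ι hι μc T₀ hT₀ n m hlev S S' hTS hSS' φ₀ Φ f₀ F hloc δ γ hγ hN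
    L hL
  exact exists_upDat893_314 hDat hE hT6 D hD hcyc hl hcplx ι hι μc T₀ hT₀ n m hlev S S' hTS hSS'
    φ₀ Φ f₀ F hloc δ γ hγ hN L hL

/-- **`H305.FactIntUpC305b`** from the core form and the leaf `SplitEnumC314` (the enumeration
of `LocHyp893.split` exhausts the places over `v`). -/
theorem factIntUpC305b_of314 (hE : SplitEnumC314 K K') (hB : FactIntUpCoreC314 K K') :
    FactIntUpC305b K K' := by
  intro hT6 D hD hcyc hl hcplx ι hι μc hμc T₀ hT₀ n m hlev
  obtain ⟨cG', hcG', hfact⟩ := hB hT6 D hD hcyc hl hcplx ι hι μc hμc T₀ hT₀ n m hlev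
  refine ⟨cG', hcG', ?_⟩
  intro S S' hTS hSS' φ₀ Φ f₀ F hloc δ γ hγ hN hgood hint L cT hL hcT U hU
  refine hfact S S' hTS hSS' φ₀ Φ hloc.inv_up hloc.arch_up δ γ hγ hN hgood hint L cT hL hcT U hU
    ?_
  intro v a
  have hv : v.1 ∈ S := (hU.union v.1).2 (Or.inr v.2)
  have hd := hU.split v
  have hl1 : 1 < D.l := hcyc.prime.one_lt
  obtain ⟨w, i, h1, h2, h3, h4, h5, h6, -⟩ :=
    hloc.split v.1 hv ⟨(U.dS v).w 1, (U.dS v).w 0, hd.ovr 1, hd.ovr 0,
      hd.ne 1 Nat.one_pos hl1⟩
  have hs : IsSplitDat340 D ι (⟨w, i⟩ : SplitDat340 K' v.1) :=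
    hE hT6 D hD hcyc hl hcplx ι hι v.1 ⟨w, i⟩ h1 h2 h3 h4 h5
  obtain ⟨b, -, hb⟩ := hs.exh ((U.dS v).w a) (hd.ovr a)
  rw [hb]
  exact h6 b

/-- **THE PROP OF RECORD `H305.UpFactC305b` FROM THE LEAVES**: the parts `UpDatC340`,
`CutOnUpC340` of helper340, the leaves of part B of helper340, and `SplitEnumC314`. -/
theorem upFactC305b_of_leaves314 (hDat : UpDatC340 K K') (hA : CutOnUpC340 K K')
    (hG : GrpSplitC340 K K') (hP : PtFactUpC340 K K')
    (hR : RayFinUpC340 K K') (hI : ArchIntblUpC340 K K') (hAI : ArchIntblC558)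
    (hCC' : CompContC558 K') (hBI' : BiInvContC558 K') (hSig : HaarSigmaC558 K)
    (hSig' : HaarSigmaC558 K') (hIso : IsoContC340) (hSC : SecCountC340 K)
    (hE : SplitEnumC314 K K') : UpFactC305b K K' :=
  upFactC305b_of314 hDat hE hA
    (factIntUpCore_of_leaves314 hG hP hR hI hAI hCC' hBI' hSig hSig' hIso hSC)

/-- The same through the parts of record of helper305 (`upFactC305b_of_parts`). -/
example (hDat : UpDatC340 K K') (hA : CutOnUpC340 K K')
    (hB : FactIntUpCoreC314 K K') (hE : SplitEnumC314 K K') : UpFactC305b K K' :=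
  upFactC305b_of_parts (upDatC305b_of314 hDat hE) hA (factIntUpC305b_of314 hE hB)

end Fermat.Agent.LT.T7.H314

end
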