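import Mathlib
import Fermat.Agent.LT.T6.Spec
import Fermat.Agent.LT.T3.H681.SatLaurent

/-!
# Row LT, tower T7, node T7.L2.1.H2b.3 `SphHypC893` (helper314, OFF-MAIN): the CORE

INJECTIVITY OF THE SATAKE TRANSFORM (T6 form).  Mathlib + `T6/Spec.lean` + the Laurent
uniqueness of helper681 (`T3/H681/SatLaurent.lean`, Mathlib only, byte-identical copy).

    satT_inj314 : q ≠ 0 → IsDominant A → IsDominant A' →
        (∀ x y ≠ 0, A.sum (c * satake q lam x y) = A'.sum (c * satake q lam x y)) → A = A'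

Proof.  Closed formula `(x - y) P_{n+2} = s^{n+2} (x^{n+3} - y^{n+3}) - s^n x y (x^{n+1} -
y^{n+1})` (`s = √q`), so `(x - y) * satake (b + n, b)` is the Laurent polynomial
`s^n (x^{b+n+1} y^b - x^b y^{b+n+1}) - κ_n (x^{b+n} y^{b+1} - x^{b+1} y^{b+n})`,
`κ_0 = 0`, `κ_n = s^n / q`.  The coefficient of `x^{a+1} y^b` (`b ≤ a`) of `(x - y) * ∑ B(λ)
satake λ` is `s^{a-b} (B(a, b) - B(a+1, b-1))`; so `B(a, b) = B(a + k, b - k)` for all `k`, and
`B = 0` (finite support).

No hole, nothing assumed.  ADDITIVE (suffix `314`).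
-/

set_option autoImplicit false

noncomputable section

namespace Fermat.Agent.LT.T7.H314

open Fermat.Agent.LT

/-- `s = √q`. -/
def sq314 (q : ℕ) : ℂ := ((Real.sqrt q : ℝ) : ℂ)

theorem sq_sq314 (q : ℕ) : sq314 q ^ 2 = (q : ℂ) := by
  unfold sq314
  rw [← Complex.ofReal_pow, Real.sq_sqrt (Nat.cast_nonneg q)]
  simp

theorem sq_ne_zero314 {q : ℕ} (hq : q ≠ 0) : sq314 q ≠ 0 := by
  intro h
  have := sq_sq314 q
  rw [h] at this
  have hq' : (q : ℂ) ≠ 0 := Nat.cast_ne_zero.2 hq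
  exact hq' (by rw [← this]; ring)

theorem satPoly_zero314 (q : ℕ) (x y : ℂ) : T6.satPoly q x y 0 = 1 := T6.satPoly.eq_1 q x y

theorem satPoly_one314 (q : ℕ) (x y : ℂ) : T6.satPoly q x y 1 = sq314 q * (x + y) :=
  T6.satPoly.eq_2 q x y

theorem satPoly_two314 (q : ℕ) (x y : ℂ) :
    T6.satPoly q x y 2 = (sq314 q * (x + y)) ^ 2 - ((q : ℂ) + 1) * (x * y) :=
  T6.satPoly.eq_3 q x y

theorem satPoly_add_three314 (q : ℕ) (x y : ℂ) (n : ℕ) :
    T6.satPoly q x y (n + 3)
      = sq314 q * (x + y) * T6.satPoly q x y (n + 2)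
        - (q : ℂ) * (x * y) * T6.satPoly q x y (n + 1) :=
  T6.satPoly.eq_4 q x y n

/-- **The closed formula** of the Satake polynomials. -/
theorem satPoly_closed314 (q : ℕ) (x y : ℂ) (n : ℕ) :
    (x - y) * T6.satPoly q x y (n + 2)
      = sq314 q ^ (n + 2) * (x ^ (n + 3) - y ^ (n + 3))
        - sq314 q ^ n * (x * y) * (x ^ (n + 1) - y ^ (n + 1)) := by
  have hs := sq_sq314 q
  have key : ∀ n : ℕ,
      ((x - y) * T6.satPoly q x y (n + 2)
        = sq314 q ^ (n + 2) * (x ^ (n + 3) - y ^ (n + 3))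
          - sq314 q ^ n * (x * y) * (x ^ (n + 1) - y ^ (n + 1))) ∧
      ((x - y) * T6.satPoly q x y (n + 3)
        = sq314 q ^ (n + 3) * (x ^ (n + 4) - y ^ (n + 4))
          - sq314 q ^ (n + 1) * (x * y) * (x ^ (n + 2) - y ^ (n + 2))) := by
    intro n
    induction n with
    | zero =>
      have h2 : (x - y) * T6.satPoly q x y 2
          = sq314 q ^ 2 * (x ^ 3 - y ^ 3) - sq314 q ^ 0 * (x * y) * (x ^ 1 - y ^ 1) := by
        rw [satPoly_two314, mul_pow, hs]
        ring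
      refine ⟨h2, ?_⟩
      show (x - y) * T6.satPoly q x y (0 + 3) = _
      rw [satPoly_add_three314]
      have e : (x - y) * (sq314 q * (x + y) * T6.satPoly q x y (0 + 2)
            - (q : ℂ) * (x * y) * T6.satPoly q x y (0 + 1))
          = sq314 q * (x + y) * ((x - y) * T6.satPoly q x y 2)
            - (q : ℂ) * (x * y) * ((x - y) * T6.satPoly q x y 1) := by
        simp only [zero_add]
        ring
      rw [e, h2, satPoly_one314, ← hs]
      ring
    | succ n ih =>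
      refine ⟨ih.2, ?_⟩
      show (x - y) * T6.satPoly q x y (n + 1 + 3) = _
      rw [satPoly_add_three314]
      have e : (x - y) * (sq314 q * (x + y) * T6.satPoly q x y (n + 1 + 2)
            - (q : ℂ) * (x * y) * T6.satPoly q x y (n + 1 + 1))
          = sq314 q * (x + y) * ((x - y) * T6.satPoly q x y (n + 3))
            - (q : ℂ) * (x * y) * ((x - y) * T6.satPoly q x y (n + 2)) := by
        ring
      rw [e, ih.1, ih.2, ← hs]
      ring
  exact (key n).1


/-! ## The Laurent polynomial of `(x - y) * satake` -/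

/-- `κ_n`: `κ_0 = 0`, `κ_n = s^n / q`. -/
def kap314 (q : ℕ) (n : ℕ) : ℂ := if n = 0 then 0 else sq314 q ^ n / (q : ℂ)

theorem kap_zero314 (q : ℕ) : kap314 q 0 = 0 := by
  unfold kap314
  rw [if_pos rfl]

theorem kap_one314 (q : ℕ) : kap314 q 1 = sq314 q ^ 1 / (q : ℂ) := by
  unfold kap314
  rw [if_neg one_ne_zero]

theorem kap_add_two314 {q : ℕ} (hq : q ≠ 0) (k : ℕ) : kap314 q (k + 2) = sq314 q ^ k := by
  unfold kap314
  have h2 : sq314 q ^ 2 ≠ 0 := pow_ne_zero _ (sq_ne_zero314 hq)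
  rw [if_neg (by omega), ← sq_sq314 q, pow_add, mul_div_assoc, div_self h2, mul_one]

/-- The Laurent polynomial of `(x - y) * satake (b + n, b)`. -/
def lau314 (q : ℕ) (b : ℤ) (n : ℕ) : (ℤ × ℤ) →₀ ℂ :=
  sq314 q ^ n • (Finsupp.single (b + n + 1, b) 1 - Finsupp.single (b, b + n + 1) 1)
    - kap314 q n • (Finsupp.single (b + n, b + 1) 1 - Finsupp.single (b + 1, b + n) 1)

/-- Evaluation of a Laurent polynomial. -/
def ev314 (x y : ℂ) : ((ℤ × ℤ) →₀ ℂ) →ₗ[ℂ] ℂ :=
  Finsupp.linearCombination ℂ (fun m : ℤ × ℤ => x ^ m.1 * y ^ m.2)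

theorem ev_single314 (x y : ℂ) (m : ℤ × ℤ) (c : ℂ) :
    ev314 x y (Finsupp.single m c) = c * (x ^ m.1 * y ^ m.2) := by
  unfold ev314
  rw [Finsupp.linearCombination_single, smul_eq_mul]

theorem ev_apply314 (x y : ℂ) (C : (ℤ × ℤ) →₀ ℂ) :
    ev314 x y C = ∑ m ∈ C.support, C m * (x ^ m.1 * y ^ m.2) := by
  unfold ev314
  rw [Finsupp.linearCombination_apply, Finsupp.sum]
  rfl

theorem ev_lau314 {q : ℕ} (hq : q ≠ 0) (x y : ℂ) (hx : x ≠ 0) (hy : y ≠ 0) (b : ℤ) (n : ℕ) :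
    ev314 x y (lau314 q b n) = (x - y) * ((x * y) ^ b * T6.satPoly q x y n) := by
  have e1 : x ^ (b + (n : ℤ) + 1) = x ^ b * x ^ n * x := by
    rw [zpow_add₀ hx, zpow_add₀ hx, zpow_natCast, zpow_one]
  have e2 : y ^ (b + (n : ℤ) + 1) = y ^ b * y ^ n * y := by
    rw [zpow_add₀ hy, zpow_add₀ hy, zpow_natCast, zpow_one]
  have e3 : x ^ (b + (n : ℤ)) = x ^ b * x ^ n := by
    rw [zpow_add₀ hx, zpow_natCast]
  have e4 : y ^ (b + (n : ℤ)) = y ^ b * y ^ n := by
    rw [zpow_add₀ hy, zpow_natCast]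
  have e5 : x ^ (b + 1) = x ^ b * x := by
    rw [zpow_add₀ hx, zpow_one]
  have e6 : y ^ (b + 1) = y ^ b * y := by
    rw [zpow_add₀ hy, zpow_one]
  have hL : ev314 x y (lau314 q b n)
      = sq314 q ^ n * (x ^ b * x ^ n * x * y ^ b - x ^ b * (y ^ b * y ^ n * y))
        - kap314 q n * (x ^ b * x ^ n * (y ^ b * y) - x ^ b * x * (y ^ b * y ^ n)) := by
    unfold lau314
    rw [map_sub, map_smul, map_smul, map_sub, map_sub, ev_single314, ev_single314, ev_single314,
      ev_single314]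
    simp only [smul_eq_mul, one_mul]
    rw [e1, e2, e3, e4, e5, e6]
  rw [hL, mul_zpow]
  rcases n with _ | _ | k
  · rw [kap_zero314, satPoly_zero314]
    ring
  · rw [satPoly_one314]
    ring
  · have hc := satPoly_closed314 q x y k
    have e : (x - y) * (x ^ b * y ^ b * T6.satPoly q x y (k + 1 + 1))
        = x ^ b * y ^ b * ((x - y) * T6.satPoly q x y (k + 2)) := by
      ring
    rw [e, hc, show k + 1 + 1 = k + 2 from rfl, kap_add_two314 hq]
    ring

theorem satake_eq314 (q : ℕ) (lam : ℤ × ℤ) (x y : ℂ) :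
    T6.satake q lam x y = (x * y) ^ lam.2 * T6.satPoly q x y (lam.1 - lam.2).toNat := rfl

/-- The value of the Laurent polynomial of `(x - y) * satake λ` at `(a + 1, b)`, `b ≤ a`. -/
theorem lau_apply314 (q : ℕ) (lam : ℤ × ℤ) (hlam : lam.2 ≤ lam.1) (a b : ℤ) (hab : b ≤ a) :
    lau314 q lam.2 (lam.1 - lam.2).toNat (a + 1, b)
      = (if lam = (a, b) then sq314 q ^ (a - b).toNat else 0)
        - (if lam = (a + 1, b - 1) then kap314 q ((a - b).toNat + 2) else 0) := by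
  classical
  obtain ⟨l1, l2⟩ := lam
  simp only at hlam
  have hn : ((l1 - l2).toNat : ℤ) = l1 - l2 := Int.toNat_of_nonneg (by omega)
  have hn' : (((a - b).toNat : ℕ) : ℤ) = a - b := Int.toNat_of_nonneg (by omega)
  unfold lau314
  simp only [Finsupp.sub_apply, Finsupp.smul_apply, Finsupp.single_apply, smul_eq_mul,
    Prod.mk.injEq]
  have c2 : ¬ (l2 = a + 1 ∧ l2 + ((l1 - l2).toNat : ℤ) + 1 = b) := by
    rintro ⟨h1, h2⟩
    omega
  rw [if_neg c2]
  by_cases h1 : l1 = a ∧ l2 = b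
  · obtain ⟨rfl, rfl⟩ := h1
    have c1 : l2 + ((l1 - l2).toNat : ℤ) + 1 = l1 + 1 ∧ l2 = l2 := ⟨by omega, rfl⟩
    have c3 : ¬ (l2 + ((l1 - l2).toNat : ℤ) = l1 + 1 ∧ l2 + 1 = l2) := by
      rintro ⟨_, h⟩
      omega
    have c5 : ¬ (l1 = l1 + 1 ∧ l2 = l2 - 1) := by
      rintro ⟨h, _⟩
      omega
    rw [if_pos c1, if_neg c3, if_pos (show l1 = l1 ∧ l2 = l2 from ⟨rfl, rfl⟩), if_neg c5]
    by_cases c4 : l2 + 1 = l1 + 1 ∧ l2 + ((l1 - l2).toNat : ℤ) = l2
    · have h0 : (l1 - l2).toNat = 0 := by omega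
      rw [h0, kap_zero314]
      ring
    · rw [if_neg c4]
      ring
  · have c1 : ¬ (l2 + ((l1 - l2).toNat : ℤ) + 1 = a + 1 ∧ l2 = b) := by
      rintro ⟨h, h'⟩
      exact h1 ⟨by omega, h'⟩
    have c4 : ¬ (l2 + 1 = a + 1 ∧ l2 + ((l1 - l2).toNat : ℤ) = b) := by
      rintro ⟨h, h'⟩
      exact h1 ⟨by omega, by omega⟩
    rw [if_neg c1, if_neg c4, if_neg h1]
    by_cases h2 : l1 = a + 1 ∧ l2 = b - 1
    · obtain ⟨rfl, rfl⟩ := h2
      have c3 : b - 1 + (((a + 1 - (b - 1)).toNat : ℕ) : ℤ) = a + 1 ∧ b - 1 + 1 = b :=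
        ⟨by omega, by omega⟩
      have hk : (a + 1 - (b - 1)).toNat = (a - b).toNat + 2 := by omega
      rw [if_pos c3, if_pos (show a + 1 = a + 1 ∧ b - 1 = b - 1 from ⟨rfl, rfl⟩), hk]
      ring
    · have c3 : ¬ (l2 + ((l1 - l2).toNat : ℤ) = a + 1 ∧ l2 + 1 = b) := by
        rintro ⟨h, h'⟩
        exact h2 ⟨by omega, by omega⟩
      rw [if_neg c3, if_neg h2]
      ring


/-! ## Injectivity -/

/-- The Laurent polynomial of `(x - y) * ∑ B(λ) satake λ`. -/
def lauSum314 (q : ℕ) (B : (ℤ × ℤ) →₀ ℂ) : (ℤ × ℤ) →₀ ℂ :=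
  ∑ lam ∈ B.support, B lam • lau314 q lam.2 (lam.1 - lam.2).toNat

theorem ev_lauSum314 {q : ℕ} (hq : q ≠ 0) (B : (ℤ × ℤ) →₀ ℂ) (x y : ℂ) (hx : x ≠ 0)
    (hy : y ≠ 0) :
    ev314 x y (lauSum314 q B) = (x - y) * (B.sum fun lam c => c * T6.satake q lam x y) := by
  unfold lauSum314
  rw [map_sum, Finsupp.sum, Finset.mul_sum]
  refine Finset.sum_congr rfl (fun lam _ => ?_)
  rw [map_smul, ev_lau314 hq x y hx hy, smul_eq_mul, satake_eq314]
  ring

theorem lauSum_zero314 {q : ℕ} (hq : q ≠ 0) (B : (ℤ × ℤ) →₀ ℂ)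
    (h : ∀ x y : ℂ, x ≠ 0 → y ≠ 0 → (B.sum fun lam c => c * T6.satake q lam x y) = 0) :
    lauSum314 q B = 0 := by
  have hz : ∀ m, (fun m => lauSum314 q B m) m = 0 := by
    apply T3.H681.laurent2_zero681 (fun m => lauSum314 q B m) (Finsupp.finite_support _)
    intro z₁ z₂ h1 h2
    have e := ev_lauSum314 hq B z₁ z₂ h1 h2
    rw [h z₁ z₂ h1 h2, mul_zero, ev_apply314] at e
    rw [finsum_eq_sum_of_support_subset (s := (lauSum314 q B).support)]
    · rw [← e]
      exact Finset.sum_congr rfl (fun m _ => by ring)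
    · intro m hm
      rw [Function.mem_support] at hm
      rw [Finset.mem_coe, Finsupp.mem_support_iff]
      intro h0
      apply hm
      rw [h0]
      ring
  exact Finsupp.ext hz

theorem lauSum_apply314 (q : ℕ) (B : (ℤ × ℤ) →₀ ℂ) (hB : T6.IsDominant B) (a b : ℤ)
    (hab : b ≤ a) :
    lauSum314 q B (a + 1, b)
      = B (a, b) * sq314 q ^ (a - b).toNat
        - B (a + 1, b - 1) * kap314 q ((a - b).toNat + 2) := by
  classical
  unfold lauSum314
  rw [Finsupp.finset_sum_apply]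
  have e : ∀ lam ∈ B.support, (B lam • lau314 q lam.2 (lam.1 - lam.2).toNat) (a + 1, b)
      = (if lam = (a, b) then B lam * sq314 q ^ (a - b).toNat else 0)
        - (if lam = (a + 1, b - 1) then B lam * kap314 q ((a - b).toNat + 2) else 0) := by
    intro lam hl
    rw [Finsupp.smul_apply, smul_eq_mul, lau_apply314 q lam (hB lam hl) a b hab, mul_sub,
      mul_ite, mul_zero, mul_ite, mul_zero]
  rw [Finset.sum_congr rfl e, Finset.sum_sub_distrib, Finset.sum_ite_eq', Finset.sum_ite_eq']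
  have h1 : (if (a, b) ∈ B.support then B (a, b) * sq314 q ^ (a - b).toNat else 0)
      = B (a, b) * sq314 q ^ (a - b).toNat := by
    split_ifs with h
    · rfl
    · rw [Finsupp.notMem_support_iff.1 h, zero_mul]
  have h2 : (if (a + 1, b - 1) ∈ B.support then
        B (a + 1, b - 1) * kap314 q ((a - b).toNat + 2) else 0)
      = B (a + 1, b - 1) * kap314 q ((a - b).toNat + 2) := by
    split_ifs with h
    · rfl
    · rw [Finsupp.notMem_support_iff.1 h, zero_mul]
  rw [h1, h2]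

/-- **The Satake transform (T6 form) is injective on the dominant functions**, zero form. -/
theorem satT_zero314 {q : ℕ} (hq : q ≠ 0) (B : (ℤ × ℤ) →₀ ℂ) (hB : T6.IsDominant B)
    (h : ∀ x y : ℂ, x ≠ 0 → y ≠ 0 → (B.sum fun lam c => c * T6.satake q lam x y) = 0) :
    B = 0 := by
  have hC := lauSum_zero314 hq B h
  have step : ∀ a b : ℤ, b ≤ a → B (a, b) = B (a + 1, b - 1) := by
    intro a b hab
    have e := lauSum_apply314 q B hB a b hab
    rw [hC, Finsupp.zero_apply, kap_add_two314 hq] at e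
    have hs : sq314 q ^ (a - b).toNat ≠ 0 := pow_ne_zero _ (sq_ne_zero314 hq)
    have h0 : (B (a, b) - B (a + 1, b - 1)) * sq314 q ^ (a - b).toNat = 0 := by
      rw [sub_mul]
      exact e.symm
    rcases mul_eq_zero.1 h0 with h1 | h1
    · exact sub_eq_zero.1 h1
    · exact absurd h1 hs
  have iter : ∀ (k : ℕ) (a b : ℤ), b ≤ a → B (a, b) = B (a + k, b - k) := by
    intro k
    induction k with
    | zero =>
      intro a b _
      simp
    | succ k ih =>
      intro a b hab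
      rw [ih a b hab, step (a + k) (b - k) (by omega)]
      have e1 : a + (k : ℤ) + 1 = a + ((k + 1 : ℕ) : ℤ) := by push_cast; ring
      have e2 : b - (k : ℤ) - 1 = b - ((k + 1 : ℕ) : ℤ) := by push_cast; ring
      rw [e1, e2]
  ext ⟨a, b⟩
  rw [Finsupp.zero_apply]
  by_contra hne
  have hab : b ≤ a := hB (a, b) (Finsupp.mem_support_iff.2 hne)
  have hmem : ∀ k : ℕ, ((a + (k : ℤ), b - (k : ℤ)) : ℤ × ℤ) ∈ (B.support : Set (ℤ × ℤ)) := by
    intro k
    rw [Finset.mem_coe, Finsupp.mem_support_iff, ← iter k a b hab]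
    exact hne
  have hinj : Function.Injective (fun k : ℕ => ((a + (k : ℤ), b - (k : ℤ)) : ℤ × ℤ)) := by
    intro k k' hkk
    simp only [Prod.mk.injEq] at hkk
    omega
  exact (Set.infinite_of_injective_forall_mem hinj hmem) B.support.finite_toSet

/-- **The Satake transform (T6 form) is injective on the dominant functions.** -/
theorem satT_inj314 {q : ℕ} (hq : q ≠ 0) (A A' : (ℤ × ℤ) →₀ ℂ) (hA : T6.IsDominant A)
    (hA' : T6.IsDominant A')
    (h : ∀ x y : ℂ, x ≠ 0 → y ≠ 0 →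
      (A.sum fun lam c => c * T6.satake q lam x y)
        = A'.sum fun lam c => c * T6.satake q lam x y) : A = A' := by
  classical
  have hB : T6.IsDominant (A - A') := by
    intro lam hl
    rcases Finset.mem_union.1 (Finsupp.support_sub hl) with h1 | h1
    · exact hA lam h1
    · exact hA' lam h1
  have h0 := satT_zero314 hq (A - A') hB (fun x y hx hy => by
    rw [Finsupp.sum_sub_index (fun a b₁ b₂ => by ring), h x y hx hy, sub_self])
  exact sub_eq_zero.1 h0

end Fermat.Agent.LT.T7.H314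

end
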