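import Mathlib
import Fermat.Agent.LT.T7.H893.SupplyProdSpec
import Fermat.Agent.LT.T7.H938.UnitMatch
import Fermat.Agent.LT.T7.H938.SplitEnum
import Fermat.Agent.LT.T3.H681.SatakeShape
import Fermat.Agent.LT.T7.H314.SatInjCore

/-!
# Row LT, tower T7, node T7.L2.1.H2b.3 `SphHypC893` (helper314, OFF-MAIN, never land)

    sphHypC_of314 : T6.T6Out → H893.SphHypC893 K K'                       (VERBATIM)

vs `LT/T7/H893/SupplyProdSpec.lean` (helper893@e6faefac5, sha256 21691ff1).  `T6.T6Out` is
closed (`T6/Closed.lean`, `top_closed`): the integrator plugs it.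

Proof.  At the places of `T₀` the clauses are those of the hypothesis.  At `v ∈ T ∖ T₀`
(unramified, levels `0`):
* `inv_up`, `inv_down`: a spherical function is bi-`GL₂(𝒪)`-invariant (`cartan_mul_left681`,
  `cartan_mul_right681`) with a finite system of representatives (`sph_rep681`, helper681);
* `inert`: `e = 1` (`e_eq_one938`), the local fields (`inert_data938`, helper938), the
  fundamental lemma `T6.FundLemmaC` with the base change relation of `SphOut893`;
* `split`: the enumeration of helper938 (`exists_enum938`; it is injective on `[0, l)`: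
  `enum_inj314`), the Cartan invariant does not change under the identifications
  (`cartan_map314`), the convolution product of the spherical components upstairs is spherical
  with Satake transform the product (`split_sph681`, helper681), and the Satake transform is
  injective on the dominant functions (`satT_inj314`, `SatInjCore.lean`).

No hole, nothing assumed.  ADDITIVE (suffix `314`).
-/

set_option autoImplicit false
set_option linter.unusedSectionVars false

open AutomorphicForm IsDedekindDomain NumberField MeasureTheory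
open scoped ComplexConjugate

noncomputable section

namespace Fermat.Agent.LT.T7.H314

open Fermat.Agent.LT.H556 Fermat.Agent.LT.H556.A0 Fermat.Agent.LT.T7 Fermat.Agent.LT.T7.H305
open Fermat.Agent.LT

section Local

variable {k k' : Type} [Field k] [Valued k T6.Γ₀] [Field k'] [Valued k' T6.Γ₀]

/-- The Cartan invariant does not change under a valuation preserving isomorphism. -/
theorem cartan_map314 (i : k ≃+* k') (hi : ∀ x : k, Valued.v (i x) = Valued.v x)
    (g : GL (Fin 2) k) :
    T6.cartan (Matrix.GeneralLinearGroup.map (i : k →+* k') g) = T6.cartan g := by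
  have e1 : ∀ a b : Fin 2,
      ((Matrix.GeneralLinearGroup.map (i : k →+* k') g : GL (Fin 2) k') :
          Matrix (Fin 2) (Fin 2) k') a b = i ((g : Matrix (Fin 2) (Fin 2) k) a b) :=
    fun _ _ => rfl
  have hmax : T6.entryMax (Matrix.GeneralLinearGroup.map (i : k →+* k') g) = T6.entryMax g := by
    refine le_antisymm ?_ ?_
    · refine (T6.H305.entryMax_le_iff _ _).2 (fun a b => ?_)
      rw [e1 a b, hi]
      exact T6.H305.le_entryMax g a b
    · refine (T6.H305.entryMax_le_iff _ _).2 (fun a b => ?_)
      rw [← hi, ← e1 a b]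
      exact T6.H305.le_entryMax _ a b
  have hdet : Valued.v ((Matrix.GeneralLinearGroup.map (i : k →+* k') g : GL (Fin 2) k') :
        Matrix (Fin 2) (Fin 2) k').det = Valued.v (g : Matrix (Fin 2) (Fin 2) k).det := by
    have e : ((Matrix.GeneralLinearGroup.map (i : k →+* k') g : GL (Fin 2) k') :
        Matrix (Fin 2) (Fin 2) k') = (i : k →+* k').mapMatrix (g : Matrix (Fin 2) (Fin 2) k) :=
      rfl
    rw [e, ← RingHom.map_det]
    exact hi _
  unfold T6.cartan
  rw [hmax, hdet]

/-- A spherical function is bi-`GL₂(𝒪)`-invariant of finite support. -/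
theorem sph_inv314 {q : ℕ} (hk : T6.IsLocalField k q) {φ : GL (Fin 2) k → ℂ}
    {A : (ℤ × ℤ) →₀ ℂ} (h : H893.IsSphFn893 φ A) :
    T6.IsBiInv (T6.InU 0) φ ∧ T6.HasFinSupp (T6.InU 0) φ := by
  obtain ⟨D, _⟩ := T6.H305.exists_resData hk
  have e : φ = fun g => A (T6.cartan g) := funext h.2
  rw [e]
  refine ⟨fun u u' g hu hu' => ?_, ?_⟩
  · show A (T6.cartan (u * g * u')) = A (T6.cartan g)
    rw [T3.H681.cartan_mul_right681 _ u' ((T6.H305.inU_zero_iff u').1 hu'),
      T3.H681.cartan_mul_left681 u g ((T6.H305.inU_zero_iff u).1 hu)]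
  · obtain ⟨_, hcov⟩ := T3.H681.sph_rep681 D A h.1
    refine ⟨T3.H681.sphSys681 D A, fun g hg => ?_⟩
    obtain ⟨x, hx, hK⟩ := hcov g hg
    exact ⟨x, hx, x⁻¹ * g, (T6.H305.inU_zero_iff _).2 hK, by group⟩

end Local

section Global

variable {K' : Type} [Field K'] [NumberField K']

/-- An enumeration in the order of the orbit of `σ` which does not return to `w 0` before `l`
is injective on `[0, l)`. -/
theorem enum_inj314 (s : T5.AdelicAut K') (w : ℕ → HeightOneSpectrum (𝓞 K')) (l : ℕ)
    (hrel : ∀ j : ℕ, T5.PlaceRel s (w (j + 1)) (w j))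
    (hne : ∀ j : ℕ, 0 < j → j < l → w j ≠ w 0) :
    ∀ j j' : ℕ, j < l → j' < l → w j = w j' → j = j' := by
  have key : ∀ (d j : ℕ), w j = w (j + d) → w 0 = w d := by
    intro d j
    induction j with
    | zero =>
      intro h
      rwa [zero_add] at h
    | succ j ih =>
      intro h
      apply ih
      apply HeightOneSpectrum.ext
      have h1 := hrel j
      have h2 := hrel (j + d)
      unfold T5.PlaceRel at h1 h2
      rw [h1, h2, show j + d + 1 = j + 1 + d by omega, h]
  intro j j' hj hj' h
  by_contra hjj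
  rcases Nat.lt_or_gt_of_ne hjj with hlt | hlt
  · have := key (j' - j) j (by rw [show j + (j' - j) = j' by omega]; exact h)
    exact hne (j' - j) (by omega) (by omega) this.symm
  · have := key (j - j') j' (by rw [show j' + (j - j') = j by omega]; exact h.symm)
    exact hne (j - j') (by omega) (by omega) this.symm

end Global

variable (K K' : Type) [Field K] [NumberField K] [Field K'] [NumberField K'] [Algebra K K']

/-- **NODE T7.L2.1.H2b.3 = SPH-HYP** (VERBATIM `H893.SphHypC893`), from the closed tower Prop
of T6. -/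
theorem sphHypC_of314 (hT6 : T6.T6Out) : H893.SphHypC893 K K' := by
  intro D hD hc _ _ μc _ T₀ hun n m hlev T _ φ₀ Φ f₀ F hyp hsph
  obtain ⟨_, _, _, _, _, hIL, hIE, hIS, _, _, _, _, _, hFL, _⟩ := hT6
  classical
  have hm0 : ∀ v, v ∉ T₀ → m v = 0 := hlev.1
  have hn0 : ∀ v, v ∉ T₀ → ∀ w, PlaceOver K K' v w → n w = 0 := fun v hv w hvw =>
    hlev.2 v w hv hvw
  refine { inv_up := ?_, inv_down := ?_, arch_up := hyp.arch_up, arch_down := hyp.arch_down,
           inert := ?_, split := ?_, arch := hyp.arch }
  · intro v hvT w hvw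
    by_cases hv : v ∈ T₀
    · exact hyp.inv_up v hv w hvw
    · obtain ⟨A, Av, _, hφw, _, _⟩ := hsph v hvT hv
      rw [hn0 v hv w hvw]
      exact sph_inv314 (hIL K' w) (hφw w hvw)
  · intro v hvT
    by_cases hv : v ∈ T₀
    · exact hyp.inv_down v hv
    · obtain ⟨A, Av, hfv, _, _, _⟩ := hsph v hvT hv
      rw [hm0 v hv]
      exact sph_inv314 (hIL K v) hfv
  · intro v hvT w hvw huniq e i sw hi hsw hext
    by_cases hv : v ∈ T₀
    · exact hyp.inert v hv w hvw huniq e i sw hi hsw hext
    · obtain ⟨A, Av, hfv, hφw, hbc, _⟩ := hsph v hvT hv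
      have hunr := hun v hv w hvw
      have he : e = 1 := H938.e_eq_one938 hunr e hext.e_pos i hi hext.val_i
      subst he
      obtain ⟨hk, hk'⟩ := H938.inert_data938 hIL hIE D.l hc hvw huniq hunr
      have e1 : φ₀ w = fun g => A w (T6.cartan g) := funext (hφw w hvw).2
      have e2 : f₀ v = fun g => Av (T6.cartan g) := funext hfv.2
      rw [hn0 v hv w hvw, hm0 v hv, e1, e2]
      exact ⟨fun δ γ c c' hreg hconj hc1 hc2 =>
          hFL.1 _ _ _ D.l i sw hk hk' hext hc.prime _ _ (hφw w hvw).1 hfv.1
            (hbc w hvw huniq) δ γ c c' hreg trivial hconj hc1 hc2,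
        fun γ c' hreg hnn hc2 =>
          hFL.2 _ _ _ D.l i sw hk hk' hext hc.prime _ _ (hφw w hvw).1 hfv.1
            (hbc w hvw huniq) γ c' hreg hnn hc2⟩
  · intro v hvT hsplit
    by_cases hv : v ∈ T₀
    · exact hyp.split v hv hsplit
    · obtain ⟨A, Av, hfv, hφw, _, hprod⟩ := hsph v hvT hv
      obtain ⟨w, i, hw, hrel, hne, hi, hval⟩ := H938.exists_enum938 hIS D hD hc v hsplit
        (fun w hw => hun v hv w hw)
      refine ⟨w, i, hw, hrel, hne, hi, hval,
        fun j => by rw [hn0 v hv (w j) (hw j), hm0 v hv], ?_⟩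
      have hinj := enum_inj314 D.s w D.l hrel hne
      have hl : 0 < D.l := hc.prime.pos
      obtain ⟨Av', hAv', hconv, hsat, _⟩ := T3.H681.split_sph681 v D.l hl
        (fun j => A (w j)) (fun j _ => (hφw (w j) (hw j)).1)
      have hq : Ideal.absNorm v.asIdeal ≠ 0 := fun h0 =>
        v.ne_bot (Ideal.absNorm_eq_zero_iff.1 h0)
      have hAA : Av = Av' := satT_inj314 hq Av Av' hfv.1 hAv' (fun x y hx hy => by
        rw [hsat x y hx hy]
        exact hprod w hw hinj x y hx hy)
      have e1 : (fun (j : ℕ) (g : GL (Fin 2) (v.adicCompletion K)) =>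
          φ₀ (w j) (Matrix.GeneralLinearGroup.map
            ((i j : v.adicCompletion K ≃+* _) :
              v.adicCompletion K →+* (w j).adicCompletion K') g))
          = fun j g => A (w j) (T6.cartan g) := by
        funext j g
        rw [(hφw (w j) (hw j)).2, cartan_map314 (i j) (hval j) g]
      have e2 : f₀ v = fun g => Av' (T6.cartan g) := by
        rw [← hAA]
        exact funext hfv.2
      rw [e1, e2, hm0 v hv]
      exact hconv

example (hT6 : T6.T6Out) : H893.SphHypC893 K K' := sphHypC_of314 K K' hT6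

end Fermat.Agent.LT.T7.H314

end
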